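import Fermat.Agent.Minkowski.Inertia

/-!
The inertia (or decomposition) group of a valuation subring of an algebraic extension preserves
the valuation.
-/

set_option autoImplicit false

namespace Fermat.Agent.MultRed

open scoped Pointwise

variable {K L : Type*} [Field K] [Field L] [Algebra K L]

theorem not_val_lt [Algebra.IsAlgebraic K L] {A : ValuationSubring L} {σ : L ≃ₐ[K] L}
    (hσ : ∀ y : L, A.valuation y < 1 → A.valuation (σ y) < 1) (x : L) :
    ¬ (A.valuation x < A.valuation (σ x)) := by
  intro hlt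
  have hx : σ x ≠ 0 := by
    intro h
    rw [h, _root_.map_zero] at hlt
    exact absurd hlt (not_lt.mpr zero_le)
  have hx' : ∀ k : ℕ, (σ ^ k) (σ x) ≠ 0 := by
    intro k h
    exact hx ((map_eq_zero_iff _ (σ ^ k).injective).mp h)
  have h1 : ∀ k : ℕ, A.valuation ((σ ^ k) (x / σ x)) < 1 := by
    intro k
    induction k with
    | zero =>
      simp only [pow_zero, AlgEquiv.one_apply]
      rw [map_div₀]
      refine (div_lt_one₀ ?_).mpr hlt
      exact (A.valuation.pos_iff).mpr hx
    | succ k ih =>
      rw [pow_succ', AlgEquiv.mul_apply]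
      exact hσ _ ih
  have h2 : ∀ k : ℕ, A.valuation ((σ ^ k) x) < A.valuation ((σ ^ (k + 1)) x) := by
    intro k
    have h3 := h1 k
    rw [map_div₀, map_div₀] at h3
    have h4 := (div_lt_one₀ ((A.valuation.pos_iff).mpr (hx' k))).mp h3
    rw [pow_succ, AlgEquiv.mul_apply]
    exact h4
  have hinj : Function.Injective (fun k : ℕ => (σ ^ k) x) := by
    have hm : StrictMono (fun k : ℕ => A.valuation ((σ ^ k) x)) := strictMono_nat_of_lt_succ h2
    intro a b hab
    exact hm.injective (congrArg A.valuation hab)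
  have hfin : (Set.range (fun k : ℕ => (σ ^ k) x)).Finite := by
    refine ((minpoly K x).rootSet_finite L).subset ?_
    rintro _ ⟨k, rfl⟩
    have hint : IsIntegral K x := Algebra.IsIntegral.isIntegral x
    rw [Polynomial.mem_rootSet]
    refine ⟨minpoly.ne_zero hint, ?_⟩
    have : (Polynomial.aeval ((σ ^ k) x)) (minpoly K x) =
        (σ ^ k) ((Polynomial.aeval x) (minpoly K x)) :=
      Polynomial.aeval_algHom_apply (σ ^ k).toAlgHom x (minpoly K x)
    change (Polynomial.aeval ((σ ^ k) x)) (minpoly K x) = 0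
    rw [this, minpoly.aeval, _root_.map_zero]
  exact Set.infinite_range_of_injective hinj hfin

theorem val_inertia_eq [Algebra.IsAlgebraic K L] {A : ValuationSubring L} {σ : L ≃ₐ[K] L}
    (hσ : σ ∈ A.inertiaSubgroupIn K) (x : L) : A.valuation (σ x) = A.valuation x := by
  have key : ∀ τ : L ≃ₐ[K] L, τ ∈ A.inertiaSubgroupIn K →
      ∀ y : L, A.valuation y < 1 → A.valuation (τ y) < 1 := by
    intro τ hτ y hy
    have hyA : y ∈ A := (A.valuation_le_one_iff y).mp hy.le
    obtain ⟨-, h2⟩ := Minkowski.sub_mem_nonunits_of_mem_inertia hτ hyA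
    rw [ValuationSubring.mem_nonunits_iff] at h2
    have : τ y = (τ y - y) + y := by ring
    rw [this]
    exact A.valuation.map_add_lt h2 hy
  apply le_antisymm
  · exact not_lt.mp (not_val_lt (key σ hσ) x)
  · have h := not_lt.mp (not_val_lt (key σ⁻¹ (inv_mem hσ)) (σ x))
    have e : σ⁻¹ (σ x) = x := σ.symm_apply_apply x
    rwa [e] at h

theorem val_inertia_sub {A : ValuationSubring L} {σ : L ≃ₐ[K] L}
    (hσ : σ ∈ A.inertiaSubgroupIn K) (x : L) (hx : A.valuation x ≤ 1) :
    A.valuation (σ x - x) < 1 := by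
  have hxA : x ∈ A := (A.valuation_le_one_iff x).mp hx
  obtain ⟨-, h2⟩ := Minkowski.sub_mem_nonunits_of_mem_inertia hσ hxA
  rwa [ValuationSubring.mem_nonunits_iff] at h2

end Fermat.Agent.MultRed
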