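import Mathlib.AlgebraicGeometry.EllipticCurve.Affine.Point

/-!
Elementary formulas for the `x`-coordinates of `P + Q`, `P - Q`, `2P`.
-/

set_option autoImplicit false

namespace Fermat.Agent.MultRed

open WeierstrassCurve WeierstrassCurve.Affine WeierstrassCurve.Affine.Point

theorem prod_id {R : Type*} [CommRing R] (a₁ a₂ a₃ a₄ a₆ x₁ x₂ y₁ y₂ : R)
    (h₁ : y₁ ^ 2 + a₁ * x₁ * y₁ + a₃ * y₁ = x₁ ^ 3 + a₂ * x₁ ^ 2 + a₄ * x₁ + a₆)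
    (h₂ : y₂ ^ 2 + a₁ * x₂ * y₂ + a₃ * y₂ = x₂ ^ 3 + a₂ * x₂ ^ 2 + a₄ * x₂ + a₆) :
    ((y₁ - y₂) ^ 2 + a₁ * (y₁ - y₂) * (x₁ - x₂)
      - (a₂ + x₁ + x₂) * (x₁ - x₂) ^ 2) *
    ((y₁ + y₂ + a₁ * x₂ + a₃) ^ 2 +
      a₁ * (y₁ + y₂ + a₁ * x₂ + a₃) * (x₁ - x₂)
      - (a₂ + x₁ + x₂) * (x₁ - x₂) ^ 2) =
    (x₁ - x₂) ^ 2 * ((x₁ * x₂) ^ 2 - (2 * a₄ + a₁ * a₃) * x₁ * x₂
      - (a₃ ^ 2 + 4 * a₆) * (x₁ + x₂) -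
      (a₁ ^ 2 * a₆ + 4 * a₂ * a₆ - a₁ * a₃ * a₄ + a₂ * a₃ ^ 2 - a₄ ^ 2)) := by
  linear_combination (2 * ((x₁ ^ 3 + a₂ * x₁ ^ 2 + a₄ * x₁ + a₆)
    - (a₂ + x₁ + x₂) * (x₁ - x₂) ^ 2 + (-a₁ * x₂ - a₃) * y₁)
    + 2 * (y₂ * (- y₂ - a₁ * x₂ - a₃)) + (y₁ ^ 2 + a₁ * x₁ * y₁ + a₃ * y₁
    - (x₁ ^ 3 + a₂ * x₁ ^ 2 + a₄ * x₁ + a₆))
    - (2 * y₁ + a₁ * (x₁ - x₂)) * (-a₁ * x₂ - a₃)) * h₁ +
    (-(y₂ * (- y₂ - a₁ * x₂ - a₃) - (x₂ ^ 3 + a₂ * x₂ ^ 2 + a₄ * x₂ + a₆)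
      + 2 * (x₁ ^ 3 + a₂ * x₁ ^ 2 + a₄ * x₁ + a₆)
      + 2 * ((a₂ + x₁ + x₂) * (x₁ - x₂) ^ 2) + (a₁ * (x₁ - x₂)) ^ 2
      - (a₁ * (x₁ - x₂)) * (-a₁ * x₂ - a₃))) * h₂

variable {K : Type*} [Field K] {W : Affine K}

/-- sum and product of the `x`-coordinates of `P + Q` and `P - Q`. -/
theorem sum_prod {x₁ y₁ x₂ y₂ : K} (h₁ : W.Equation x₁ y₁) (h₂ : W.Equation x₂ y₂)
    (hx : x₁ ≠ x₂) {α β : K}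
    (hα : α = ((y₁ - y₂) / (x₁ - x₂)) ^ 2 + W.a₁ * ((y₁ - y₂) / (x₁ - x₂)) - W.a₂ - x₁ - x₂)
    (hβ : β = ((y₁ + y₂ + W.a₁ * x₂ + W.a₃) / (x₁ - x₂)) ^ 2 +
        W.a₁ * ((y₁ + y₂ + W.a₁ * x₂ + W.a₃) / (x₁ - x₂)) - W.a₂ - x₁ - x₂) :
    (x₁ - x₂) ^ 2 * (α + β) =
      2 * x₁ * x₂ * (x₁ + x₂) + W.b₂ * x₁ * x₂ + W.b₄ * (x₁ + x₂) + W.b₆ ∧
    (x₁ - x₂) ^ 2 * (α * β) =
      (x₁ * x₂) ^ 2 - W.b₄ * x₁ * x₂ - W.b₆ * (x₁ + x₂) - W.b₈ := by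
  have hd : x₁ - x₂ ≠ 0 := sub_ne_zero.mpr hx
  rw [equation_iff] at h₁ h₂
  have hα' : (x₁ - x₂) ^ 2 * α = (y₁ - y₂) ^ 2 + W.a₁ * (y₁ - y₂) * (x₁ - x₂)
      - (W.a₂ + x₁ + x₂) * (x₁ - x₂) ^ 2 := by
    rw [hα]; field_simp; ring
  have hβ' : (x₁ - x₂) ^ 2 * β = (y₁ + y₂ + W.a₁ * x₂ + W.a₃) ^ 2 +
      W.a₁ * (y₁ + y₂ + W.a₁ * x₂ + W.a₃) * (x₁ - x₂)
      - (W.a₂ + x₁ + x₂) * (x₁ - x₂) ^ 2 := by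
    rw [hβ]; field_simp; ring
  constructor
  · rw [mul_add, hα', hβ', b₂, b₄, b₆]
    linear_combination 2 * h₁ + 2 * h₂
  · apply mul_left_cancel₀ (pow_ne_zero 2 hd)
    have : (x₁ - x₂) ^ 2 * ((x₁ - x₂) ^ 2 * (α * β)) =
        ((x₁ - x₂) ^ 2 * α) * ((x₁ - x₂) ^ 2 * β) := by ring
    rw [this, hα', hβ', b₄, b₆, b₈]
    exact prod_id _ _ _ _ _ _ _ _ _ h₁ h₂

variable [DecidableEq K]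

/-- the chord through `P` and `Q` -/
theorem exists_add_some {x₁ y₁ x₂ y₂ : K} (h₁ : W.Nonsingular x₁ y₁) (h₂ : W.Nonsingular x₂ y₂)
    (hx : x₁ ≠ x₂) :
    ∃ (y₃ : K) (h₃ : W.Nonsingular
      (((y₁ - y₂) / (x₁ - x₂)) ^ 2 + W.a₁ * ((y₁ - y₂) / (x₁ - x₂)) - W.a₂ - x₁ - x₂) y₃),
      some _ _ h₁ + some _ _ h₂ = some _ _ h₃ := by
  have hs := slope_of_X_ne (W := W) (y₁ := y₁) (y₂ := y₂) hx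
  have key := add_of_X_ne (h₁ := h₁) (h₂ := h₂) hx
  have hX : W.addX x₁ x₂ (W.slope x₁ x₂ y₁ y₂) =
      ((y₁ - y₂) / (x₁ - x₂)) ^ 2 + W.a₁ * ((y₁ - y₂) / (x₁ - x₂)) - W.a₂ - x₁ - x₂ := by
    rw [hs, addX]
  have h₃ := nonsingular_add h₁ h₂ (fun hxy => hx hxy.1)
  rw [hX] at h₃
  refine ⟨_, h₃, ?_⟩
  rw [key]
  simp only [some.injEq, and_true]
  exact hX

theorem exists_sub_some {x₁ y₁ x₂ y₂ : K} (h₁ : W.Nonsingular x₁ y₁) (h₂ : W.Nonsingular x₂ y₂)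
    (hx : x₁ ≠ x₂) :
    ∃ (y₃ : K) (h₃ : W.Nonsingular
      (((y₁ + y₂ + W.a₁ * x₂ + W.a₃) / (x₁ - x₂)) ^ 2 +
        W.a₁ * ((y₁ + y₂ + W.a₁ * x₂ + W.a₃) / (x₁ - x₂)) - W.a₂ - x₁ - x₂) y₃),
      some _ _ h₁ - some _ _ h₂ = some _ _ h₃ := by
  obtain ⟨y₃, h₃, h⟩ := exists_add_some h₁ ((nonsingular_neg x₂ y₂).mpr h₂) hx
  have e : y₁ - W.negY x₂ y₂ = y₁ + y₂ + W.a₁ * x₂ + W.a₃ := by rw [negY]; ring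
  rw [e] at h₃
  refine ⟨y₃, h₃, ?_⟩
  rw [sub_eq_add_neg, neg_some, h]
  simp only [some.injEq, and_true]
  rw [e]

/-- addition and subtraction together with the sum and product formulas. -/
theorem exists_add_sub {x₁ y₁ x₂ y₂ : K} (h₁ : W.Nonsingular x₁ y₁) (h₂ : W.Nonsingular x₂ y₂)
    (hx : x₁ ≠ x₂) :
    ∃ (α β yα yβ : K) (hα : W.Nonsingular α yα) (hβ : W.Nonsingular β yβ),
      some _ _ h₁ + some _ _ h₂ = some _ _ hα ∧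
      some _ _ h₁ - some _ _ h₂ = some _ _ hβ ∧
      α = ((y₁ - y₂) / (x₁ - x₂)) ^ 2 + W.a₁ * ((y₁ - y₂) / (x₁ - x₂)) - W.a₂ - x₁ - x₂ ∧
      (x₁ - x₂) ^ 2 * (α + β) =
        2 * x₁ * x₂ * (x₁ + x₂) + W.b₂ * x₁ * x₂ + W.b₄ * (x₁ + x₂) + W.b₆ ∧
      (x₁ - x₂) ^ 2 * (α * β) =
        (x₁ * x₂) ^ 2 - W.b₄ * x₁ * x₂ - W.b₆ * (x₁ + x₂) - W.b₈ := by
  obtain ⟨yα, hα, eα⟩ := exists_add_some h₁ h₂ hx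
  obtain ⟨yβ, hβ, eβ⟩ := exists_sub_some h₁ h₂ hx
  obtain ⟨hs, hp⟩ := sum_prod h₁.1 h₂.1 hx rfl rfl
  exact ⟨_, _, yα, yβ, hα, hβ, eα, eβ, rfl, hs, hp⟩

/-- duplication formula -/
theorem exists_two_smul {x y : K} (h : W.Nonsingular x y) (hy : 2 * y + W.a₁ * x + W.a₃ ≠ 0) :
    ∃ (γ yγ : K) (hγ : W.Nonsingular γ yγ),
      (2 : ℕ) • some _ _ h = some _ _ hγ ∧
      (4 * x ^ 3 + W.b₂ * x ^ 2 + 2 * W.b₄ * x + W.b₆) * γ =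
        x ^ 4 - W.b₄ * x ^ 2 - 2 * W.b₆ * x - W.b₈ := by
  have hne : y ≠ W.negY x y := by
    intro hh
    apply hy
    rw [negY] at hh
    linear_combination hh
  have h₃ := nonsingular_add h h (fun hxy => hne hxy.2)
  have key := add_self_of_Y_ne (h₁ := h) hne
  refine ⟨_, _, h₃, by rw [two_nsmul, key], ?_⟩
  rw [slope_of_Y_ne rfl hne, addX]
  have hden : y - W.negY x y = 2 * y + W.a₁ * x + W.a₃ := by rw [negY]; ring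
  rw [hden]
  have heq := h.1
  rw [equation_iff] at heq
  have e1 : 4 * x ^ 3 + W.b₂ * x ^ 2 + 2 * W.b₄ * x + W.b₆ = (2 * y + W.a₁ * x + W.a₃) ^ 2 := by
    rw [b₂, b₄, b₆]
    linear_combination -4 * heq
  rw [e1]
  have e2 : (2 * y + W.a₁ * x + W.a₃) ^ 2 *
      (((3 * x ^ 2 + 2 * W.a₂ * x + W.a₄ - W.a₁ * y) / (2 * y + W.a₁ * x + W.a₃)) ^ 2 +
      W.a₁ * ((3 * x ^ 2 + 2 * W.a₂ * x + W.a₄ - W.a₁ * y) / (2 * y + W.a₁ * x + W.a₃))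
      - W.a₂ - x - x) = (3 * x ^ 2 + 2 * W.a₂ * x + W.a₄ - W.a₁ * y) ^ 2 +
      W.a₁ * (3 * x ^ 2 + 2 * W.a₂ * x + W.a₄ - W.a₁ * y) * (2 * y + W.a₁ * x + W.a₃) -
      (W.a₂ + 2 * x) * (2 * y + W.a₁ * x + W.a₃) ^ 2 := by
    field_simp
    ring
  rw [e2, b₄, b₆, b₈]
  linear_combination (-W.a₁ ^ 2 - 4 * (W.a₂ + 2 * x)) * heq

end Fermat.Agent.MultRed
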