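import Fermat.Agent.MultRed.TwoAdic

/-!
Inertia acts unipotently on odd torsion, residue characteristic two, multiplicative reduction.
-/

set_option autoImplicit false

namespace Fermat.Agent.MultRed

open WeierstrassCurve WeierstrassCurve.Affine WeierstrassCurve.Affine.Point

variable {K : Type*} [Field K] {Γ₀ : Type*} [LinearOrderedCommGroupWithZero Γ₀]

namespace NodeTwo

variable {v : Valuation K Γ₀} {W : Affine K} (H : NodeTwo v W)
include H

theorem eqn {x y : K} (h : W.Equation x y) :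
    y ^ 2 + W.a₁ * x * y = x ^ 3 + W.a₂ * x ^ 2 + W.a₄ * x := by
  rw [equation_iff, H.a₃, H.a₆] at h
  linear_combination h

theorem v_y_le {x y : K} (h : W.Equation x y) (hx : v x ≤ 1) : v y ≤ 1 := by
  by_contra hcon
  rw [not_le] at hcon
  have h1 := H.eqn h
  have hy0 : 0 < v y := zero_lt_one.trans hcon
  have h2 : v (y ^ 2 + W.a₁ * x * y) = v y ^ 2 := by
    have hlt : v (W.a₁ * x * y) < v (y ^ 2) := by
      rw [map_mul, map_mul, map_pow, H.va₁, one_mul, pow_two]
      calc v x * v y ≤ 1 * v y := by gcongr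
        _ < v y * v y := by gcongr
    rw [v.map_add_eq_of_lt_left hlt, map_pow]
  have h3 : v (x ^ 3 + W.a₂ * x ^ 2 + W.a₄ * x) ≤ 1 := by
    refine v.map_add_le (v.map_add_le ?_ ?_) ?_
    · rw [map_pow]; exact pow_le_one₀ zero_le hx
    · rw [map_mul, map_pow]; exact mul_le_one' H.va₂ (pow_le_one₀ zero_le hx)
    · rw [map_mul]; exact mul_le_one' H.va₄.le hx
  rw [← h1, h2] at h3
  exact absurd (one_lt_pow₀ hcon (by norm_num)) (not_lt.mpr h3)

theorem v_sum {x x' : K} (hx : v W.a₄ < v x) (hx1 : v x ≤ 1) (hxx : v x' = v x) :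
    v (2 * x * x' * (x + x') + W.b₂ * x * x' + W.b₄ * (x + x') + W.b₆) = v x ^ 2 := by
  have hx0 : 0 < v x := lt_of_le_of_lt zero_le hx
  have hadd : v (x + x') ≤ v x := v.map_add_le le_rfl hxx.le
  rw [H.b₄_eq, H.b₆_eq, add_zero]
  have e1 : v (W.b₂ * x * x') = v x ^ 2 := by
    rw [map_mul, map_mul, H.vb₂, one_mul, hxx, pow_two]
  have e2 : v (2 * x * x' * (x + x')) < v x ^ 2 := by
    rw [map_mul, map_mul, map_mul, hxx]
    calc v 2 * v x * v x * v (x + x') ≤ v 2 * v x * v x * v x := by gcongr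
      _ ≤ v 2 * v x * v x * 1 := by gcongr
      _ = v 2 * v x ^ 2 := by rw [mul_one, mul_assoc, pow_two]
      _ < 1 * v x ^ 2 := mul_lt_mul_of_pos_right H.v2 (pow_pos hx0 2)
      _ = v x ^ 2 := one_mul _
  have e3 : v (2 * W.a₄ * (x + x')) < v x ^ 2 := by
    rw [map_mul, map_mul]
    calc v 2 * v W.a₄ * v (x + x') ≤ v 2 * v W.a₄ * v x := by gcongr
      _ ≤ 1 * v W.a₄ * v x := by gcongr; exact H.v2.le
      _ = v W.a₄ * v x := by rw [one_mul]
      _ < v x * v x := mul_lt_mul_of_pos_right hx hx0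
      _ = v x ^ 2 := by rw [pow_two]
  have e4 : v (2 * x * x' * (x + x') + W.b₂ * x * x') = v x ^ 2 := by
    rw [v.map_add_eq_of_lt_right (by rw [e1]; exact e2), e1]
  rw [v.map_add_eq_of_lt_left (by rw [e4]; exact e3), e4]

end NodeTwo

namespace NodeTwo

variable [DecidableEq K] {v : Valuation K Γ₀} {W : Affine K} (H : NodeTwo v W)
include H

theorem fix_of_val_one {n : ℕ} (hn : Odd n) (σ : K →+* K) (S : W.Point →+ W.Point)
    (hS : ∀ (x y : K) (h : W.Nonsingular x y), ∃ h', S (some x y h) = some (σ x) (σ y) h')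
    (hσv : ∀ x, v (σ x) = v x) (hσ1 : ∀ x, v x ≤ 1 → v (σ x - x) < 1)
    {x y : K} (h : W.Nonsingular x y) (hP : n • some x y h = 0) (hx : v x = 1) :
    S (some x y h) = some x y h := by
  obtain ⟨h', hSP⟩ := hS x y h
  have hSt : n • some (σ x) (σ y) h' = 0 := by rw [← hSP, ← map_nsmul, hP, _root_.map_zero]
  have hvy := H.v_y_le h.1 hx.le
  by_cases hxx : x = σ x
  · have h1 := h'.1
    rw [← hxx] at h1
    rcases Y_eq_of_X_eq h1 h.1 rfl with h2 | h2
    · rw [hSP]; simp only [some.injEq]; exact ⟨hxx.symm, h2⟩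
    · exfalso
      have h3 := hσ1 y hvy
      rw [h2, negY, H.a₃] at h3
      have e1 : -y - W.a₁ * x - 0 - y = -(2 * y + W.a₁ * x) := by ring
      rw [e1, v.map_neg] at h3
      have e2 : v (W.a₁ * x) = 1 := by rw [map_mul, H.va₁, hx, one_mul]
      have e3 : v (2 * y) < 1 := by
        rw [map_mul]; exact mul_lt_one_of_lt_of_le H.v2 hvy
      rw [v.map_add_eq_of_lt_right (by rw [e2]; exact e3), e2] at h3
      exact lt_irrefl _ h3
  · exfalso
    obtain ⟨α, β, yα, yβ, hα, hβ, eα, eβ, -, hs, -⟩ := exists_add_sub h h' hxx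
    have tα : n • some α yα hα = 0 := by rw [← eα, smul_add, hP, hSt, add_zero]
    have tβ : n • some β yβ hβ = 0 := by rw [← eβ, smul_sub, hP, hSt, sub_zero]
    have vα := H.odd_val_le hn hα tα
    have vβ := H.odd_val_le hn hβ tβ
    have hv := congrArg v hs
    rw [H.v_sum (by rw [hx]; exact H.va₄) hx.le (hσv x), hx, one_pow, map_mul, map_pow] at hv
    have h1 : v (x - σ x) < 1 := by rw [v.map_sub_swap]; exact hσ1 x hx.le
    have h2 : v (α + β) ≤ 1 := v.map_add_le vα vβ
    have h3 : v (x - σ x) ^ 2 * v (α + β) < 1 :=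
      mul_lt_one_of_lt_of_le (pow_lt_one₀ zero_le h1 (by norm_num)) h2
    rw [hv] at h3
    exact lt_irrefl _ h3

theorem sub_of_val_lt_one {n : ℕ} (hn : Odd n) (σ : K →+* K) (S : W.Point →+ W.Point)
    (hS : ∀ (x y : K) (h : W.Nonsingular x y), ∃ h', S (some x y h) = some (σ x) (σ y) h')
    (hσv : ∀ x, v (σ x) = v x) (hσ1 : ∀ x, v x ≤ 1 → v (σ x - x) < 1)
    {x y : K} (h : W.Nonsingular x y) (hP : n • some x y h = 0) (hx : v x < 1) :
    S (some x y h) = some x y h ∨ ∃ (β yβ : K) (hβ : W.Nonsingular β yβ),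
      some x y h - S (some x y h) = some β yβ hβ ∧ v β = 1 := by
  obtain ⟨h', hSP⟩ := hS x y h
  have hSt : n • some (σ x) (σ y) h' = 0 := by rw [← hSP, ← map_nsmul, hP, _root_.map_zero]
  have hgt := H.odd_val_gt hn h hP
  have hx0' : 0 < v x := lt_of_le_of_lt zero_le hgt
  have hx0 : x ≠ 0 := (v.pos_iff).mp hx0'
  have hsx0' : 0 < v (σ x) := by rw [hσv]; exact hx0'
  have hsx0 : σ x ≠ 0 := (v.pos_iff).mp hsx0'
  obtain ⟨τ, hτ⟩ : ∃ τ, τ = y / x := ⟨_, rfl⟩
  have hy : y = τ * x := by rw [hτ]; field_simp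
  have hτeq : τ ^ 2 + W.a₁ * τ - W.a₂ = x + W.a₄ / x := by
    have h1 := H.eqn h.1
    have h2 : x ^ 2 * (τ ^ 2 + W.a₁ * τ - W.a₂) = x ^ 2 * (x + W.a₄ / x) := by
      rw [mul_add, mul_div_assoc']
      have : x ^ 2 * W.a₄ / x = x * W.a₄ := by field_simp
      rw [this, ← sub_eq_zero]
      rw [hy] at h1
      linear_combination h1
    exact mul_left_cancel₀ (pow_ne_zero 2 hx0) h2
  have hax : v (W.a₄ / x) < 1 := by
    rw [map_div₀]; exact (div_lt_one₀ hx0').mpr hgt
  have hvτ : v τ ≤ 1 := by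
    by_contra hcon
    rw [not_le] at hcon
    have hτ0 : 0 < v τ := zero_lt_one.trans hcon
    have h1 : v (τ ^ 2 + W.a₁ * τ - W.a₂) = v τ ^ 2 := by
      have h2 : 1 < v τ ^ 2 := one_lt_pow₀ hcon (by norm_num)
      have h3 : v (W.a₁ * τ) < v (τ ^ 2) := by
        rw [map_mul, map_pow, H.va₁, one_mul, pow_two]
        exact lt_mul_of_one_lt_left hτ0 hcon
      have h4 : v (τ ^ 2 + W.a₁ * τ) = v τ ^ 2 := by
        rw [v.map_add_eq_of_lt_left h3, map_pow]
      rw [v.map_sub_eq_of_lt_left, h4]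
      rw [h4]
      exact H.va₂.trans_lt h2
    have h5 : v (x + W.a₄ / x) < 1 := v.map_add_lt hx hax
    rw [← hτeq, h1] at h5
    exact absurd (one_lt_pow₀ hcon (by norm_num)) (not_lt.mpr h5.le)
  have hσy : σ y = σ τ * σ x := by rw [hy, map_mul]
  have hστ := hσ1 τ hvτ
  by_cases hxx : x = σ x
  · left
    have h1 := h'.1
    rw [← hxx] at h1
    rcases Y_eq_of_X_eq h1 h.1 rfl with h2 | h2
    · rw [hSP]; simp only [some.injEq]; exact ⟨hxx.symm, h2⟩
    · exfalso
      have h3 : σ τ = - τ - W.a₁ := by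
        rw [negY, H.a₃, hσy, ← hxx] at h2
        have : (σ τ - (- τ - W.a₁)) * x = 0 := by
          rw [hy] at h2; linear_combination h2
        rcases mul_eq_zero.mp this with h4 | h4
        · linear_combination h4
        · exact absurd h4 hx0
      rw [h3] at hστ
      have e1 : -τ - W.a₁ - τ = -(2 * τ + W.a₁) := by ring
      rw [e1, v.map_neg] at hστ
      have e3 : v (2 * τ) < 1 := by
        rw [map_mul]; exact mul_lt_one_of_lt_of_le H.v2 hvτ
      rw [v.map_add_eq_of_lt_right (by rw [H.va₁]; exact e3), H.va₁] at hστ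
      exact lt_irrefl _ hστ
  · right
    obtain ⟨α, β, yα, yβ, hα, hβ, eα, eβ, hαf, hs, -⟩ := exists_add_sub h h' hxx
    have tα : n • some α yα hα = 0 := by rw [← eα, smul_add, hP, hSt, add_zero]
    have tβ : n • some β yβ hβ = 0 := by rw [← eβ, smul_sub, hP, hSt, sub_zero]
    have vα := H.odd_val_le hn hα tα
    have vβ := H.odd_val_le hn hβ tβ
    have hv := congrArg v hs
    rw [H.v_sum hgt hx.le (hσv x), map_mul, map_pow] at hv
    have h1 : v (x - σ x) ≤ v x := v.map_sub_le le_rfl (hσv x).le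
    have h2 : v (α + β) ≤ 1 := v.map_add_le vα vβ
    have h3 : v (x - σ x) = v x := by
      refine le_antisymm h1 ?_
      by_contra hcon
      rw [not_le] at hcon
      have : v (x - σ x) ^ 2 * v (α + β) < v x ^ 2 := by
        calc v (x - σ x) ^ 2 * v (α + β) ≤ v (x - σ x) ^ 2 * 1 := by gcongr
          _ = v (x - σ x) ^ 2 := mul_one _
          _ < v x ^ 2 := pow_lt_pow_left₀ hcon zero_le (by norm_num)
      rw [hv] at this
      exact lt_irrefl _ this
    have h4 : v (α + β) = 1 := by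
      rw [h3] at hv
      have h5 : v x ^ 2 * v (α + β) = v x ^ 2 * 1 := by rw [mul_one]; exact hv
      exact mul_left_cancel₀ (pow_ne_zero 2 hx0'.ne') h5
    have hd0 : x - σ x ≠ 0 := sub_ne_zero.mpr hxx
    have hdv : 0 < v (x - σ x) := (v.pos_iff).mpr hd0
    obtain ⟨δ, hδ⟩ : ∃ δ, δ = (τ - σ τ) * σ x / (x - σ x) := ⟨_, rfl⟩
    have vδ : v δ < 1 := by
      rw [hδ, map_div₀, map_mul, h3, hσv, mul_div_assoc, div_self hx0'.ne', mul_one,
        v.map_sub_swap]
      exact hστ
    have hslope : (y - σ y) / (x - σ x) = τ + δ := by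
      rw [hδ, hσy, hy]
      field_simp
      ring
    have hα2 : α = δ ^ 2 + (2 * τ + W.a₁) * δ + W.a₄ / x - σ x := by
      rw [hαf, hslope]
      linear_combination hτeq
    have vα1 : v α < 1 := by
      rw [hα2]
      refine v.map_sub_lt (v.map_add_lt (v.map_add_lt ?_ ?_) ?_) ?_
      · rw [map_pow]; exact pow_lt_one₀ zero_le vδ (by norm_num)
      · rw [map_mul, mul_comm]
        refine mul_lt_one_of_lt_of_le vδ (v.map_add_le ?_ H.va₁.le)
        rw [map_mul]
        exact mul_le_one' H.v2.le hvτ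
      · exact hax
      · rw [hσv]; exact hx
    refine ⟨β, yβ, hβ, by rw [hSP]; exact eβ, ?_⟩
    refine le_antisymm vβ ?_
    by_contra hcon
    rw [not_le] at hcon
    have := v.map_add_lt vα1 hcon
    rw [h4] at this
    exact lt_irrefl _ this

/-- Inertia acts unipotently on odd torsion. -/
theorem unipotent {n : ℕ} (hn : Odd n) (σ : K →+* K) (S : W.Point →+ W.Point)
    (hS : ∀ (x y : K) (h : W.Nonsingular x y), ∃ h', S (some x y h) = some (σ x) (σ y) h')
    (hσv : ∀ x, v (σ x) = v x) (hσ1 : ∀ x, v x ≤ 1 → v (σ x - x) < 1)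
    (P : W.Point) (hP : n • P = 0) :
    S (S P - P) = S P - P := by
  match P, hP with
  | .zero, _ =>
    have : (Point.zero : W.Point) = 0 := rfl
    rw [this]; simp
  | Point.some x y h, hP =>
    rcases (H.odd_val_le hn h hP).lt_or_eq with hx | hx
    · rcases H.sub_of_val_lt_one hn σ S hS hσv hσ1 h hP hx with h1 | ⟨β, yβ, hβ, e, hb⟩
      · rw [h1, sub_self, _root_.map_zero]
      · have e2 : S (some x y h) - some x y h = - some β yβ hβ := by rw [← e, neg_sub]
        have t : n • some β yβ hβ = 0 := by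
          rw [← e, smul_sub, ← map_nsmul, hP, _root_.map_zero, sub_zero]
        rw [e2, map_neg, H.fix_of_val_one hn σ S hS hσv hσ1 hβ t hb]
    · rw [H.fix_of_val_one hn σ S hS hσv hσ1 h hP hx, sub_self, _root_.map_zero]

end NodeTwo

end Fermat.Agent.MultRed
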