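import Fermat.Agent.MultRed.InertiaTwo
import Mathlib.NumberTheory.Padics.PadicNumbers
import Mathlib.Tactic

/-!
A rational elliptic curve with multiplicative reduction at `2`: valuations of the coordinates of
odd order rational points.
-/

set_option autoImplicit false

namespace Fermat.Agent.MultRed

open WeierstrassCurve WeierstrassCurve.Affine WeierstrassCurve.Affine.Point

local notation "v₂" => Rat.padicValuation 2

theorem v₂_apply {x : ℚ} (hx : x ≠ 0) : v₂ x = WithZero.exp (-padicValRat 2 x) := by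
  simp [Rat.padicValuation, hx]

theorem v₂_lt {x y : ℚ} (hx : x ≠ 0) (hy : y ≠ 0) :
    v₂ x < v₂ y ↔ padicValRat 2 y < padicValRat 2 x := by
  rw [v₂_apply hx, v₂_apply hy, WithZero.exp_lt_exp]
  omega

theorem v₂_lt_one {x : ℚ} (hx : x ≠ 0) : v₂ x < 1 ↔ 0 < padicValRat 2 x := by
  rw [v₂_apply hx, ← WithZero.exp_zero, WithZero.exp_lt_exp]
  omega

theorem v₂_eq_one {x : ℚ} (hx : x ≠ 0) : v₂ x = 1 ↔ padicValRat 2 x = 0 := by
  rw [v₂_apply hx, ← WithZero.exp_zero, WithZero.exp_inj]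
  omega

theorem odd_of_v₂_eq_one {x : ℚ} (hx : v₂ x = 1) : ¬ (2 : ℤ) ∣ x.num ∧ ¬ (2 : ℤ) ∣ x.den := by
  have h1 : ¬ 2 ∣ x.den := Rat.padicValuation_le_one_iff.mp hx.le
  have h1' : ¬ (2 : ℤ) ∣ x.den := by exact_mod_cast h1
  refine ⟨?_, h1'⟩
  rw [← Nat.cast_ofNat, ← Int.padicValuation_eq_one_iff, ← Rat.padicValuation_cast]
  have h2 : v₂ ((x.den : ℤ) : ℚ) = 1 := by
    rw [Rat.padicValuation_cast, Int.padicValuation_eq_one_iff]
    exact_mod_cast h1
  have h3 : (x.num : ℚ) = x * ((x.den : ℤ) : ℚ) := by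
    rw [Int.cast_natCast]
    exact (Rat.mul_den_eq_num x).symm
  rw [h3, _root_.map_mul, hx, h2, one_mul]

theorem v₂_sub_lt {x y : ℚ} (hx : v₂ x = 1) (hy : v₂ y = 1) : v₂ (x - y) < 1 := by
  obtain ⟨h1, h2⟩ := odd_of_v₂_eq_one hx
  obtain ⟨h3, h4⟩ := odd_of_v₂_eq_one hy
  have h2' : v₂ ((x.den : ℤ) : ℚ) = 1 := by
    rw [Rat.padicValuation_cast, Int.padicValuation_eq_one_iff]
    exact_mod_cast h2
  have h4' : v₂ ((y.den : ℤ) : ℚ) = 1 := by
    rw [Rat.padicValuation_cast, Int.padicValuation_eq_one_iff]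
    exact_mod_cast h4
  have h5 : (x - y) * (((x.den : ℤ) : ℚ) * ((y.den : ℤ) : ℚ)) =
      ((x.num * y.den - y.num * x.den : ℤ) : ℚ) := by
    have e1 : (x.num : ℚ) = x * (x.den : ℚ) := (Rat.mul_den_eq_num x).symm
    have e2 : (y.num : ℚ) = y * (y.den : ℚ) := (Rat.mul_den_eq_num y).symm
    push_cast
    rw [e1, e2]
    ring
  have h6 : v₂ (x - y) = v₂ (((x.num * y.den - y.num * x.den : ℤ) : ℚ)) := by
    rw [← h5, _root_.map_mul, _root_.map_mul, h2', h4', one_mul, mul_one]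
  rw [h6, Rat.padicValuation_cast, Int.padicValuation_lt_one_iff]
  have a1 : (x.num * y.den) % 2 = 1 := by
    rw [Int.mul_emod]
    have : x.num % 2 = 1 := by omega
    have : (y.den : ℤ) % 2 = 1 := by omega
    simp_all
  have a2 : (y.num * x.den) % 2 = 1 := by
    rw [Int.mul_emod]
    have : y.num % 2 = 1 := by omega
    have : (x.den : ℤ) % 2 = 1 := by omega
    simp_all
  push_cast
  omega

/-- `Rat.padicValuation 2` of a sum of rational numbers: additive notation. -/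
theorem w_add_ge {x y : ℚ} (h : x + y ≠ 0) :
    min (padicValRat 2 x) (padicValRat 2 y) ≤ padicValRat 2 (x + y) :=
  padicValRat.min_le_padicValRat_add h

theorem w_add_eq {x y : ℚ} (hx : x ≠ 0) (hy : y ≠ 0) (h : padicValRat 2 x < padicValRat 2 y) :
    padicValRat 2 (x + y) = padicValRat 2 x ∧ x + y ≠ 0 := by
  have hne : x + y ≠ 0 := by
    intro h0
    have : x = -y := by linear_combination h0
    rw [this, padicValRat.neg] at h
    exact lt_irrefl _ h
  exact ⟨padicValRat.add_eq_of_lt hne hx hy h, hne⟩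

variable {W : Affine ℚ}

/-- No odd order point (of order prime to three) of nonsingular reduction. -/
theorem v_lt_one_of_odd (H : NodeTwo v₂ W) {n : ℕ} (hn : Odd n) (hn3 : Nat.Coprime 3 n) {x y : ℚ}
    (h : W.Nonsingular x y) (hP : n • some x y h = 0) : v₂ x < 1 := by
  refine lt_of_le_of_ne (H.odd_val_le hn h hP) ?_
  intro hx
  obtain ⟨γ, yγ, hγ, h2, hγt, hf⟩ := odd_dbl hn h hP
  have hγ1 := H.dbl_eq hx hf
  by_cases hxγ : x = γ
  · rcases (X_eq_iff (h₁ := h) (h₂ := hγ)).mp hxγ with h3 | h3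
    · have h4 : some x y h = 0 := by
        rw [← h2, two_nsmul] at h3
        exact left_eq_add.mp h3
      exact some_ne_zero h h4
    · have h4 : (3 : ℕ) • some x y h = 0 := by
        have : (3 : ℕ) • some x y h = some x y h + (2 : ℕ) • some x y h := by
          rw [succ_nsmul']
        rw [this, h2, h3]
        exact neg_add_cancel _
      have h5 : (1 : ℕ) • some x y h = 0 := by
        have h6 : addOrderOf (some x y h) ∣ 3 := addOrderOf_dvd_of_nsmul_eq_zero h4
        have h7 : addOrderOf (some x y h) ∣ n := addOrderOf_dvd_of_nsmul_eq_zero hP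
        have h8 := Nat.dvd_gcd h6 h7
        rw [hn3] at h8
        exact addOrderOf_dvd_iff_nsmul_eq_zero.mp h8
      rw [one_nsmul] at h5
      exact some_ne_zero h h5
  · obtain ⟨α, β, yα, yβ, hα, hβ, eα, eβ, -, hs, -⟩ := exists_add_sub h hγ hxγ
    have tα : n • some α yα hα = 0 := by rw [← eα, smul_add, hP, hγt, add_zero]
    have tβ : n • some β yβ hβ = 0 := by rw [← eβ, smul_sub, hP, hγt, sub_zero]
    have vα := H.odd_val_le hn hα tα
    have vβ := H.odd_val_le hn hβ tβ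
    have hv := congrArg v₂ hs
    rw [H.v_sum (by rw [hx]; exact H.va₄) hx.le (hγ1.trans hx.symm), hx, one_pow,
      _root_.map_mul, _root_.map_pow] at hv
    have h1 : v₂ (x - γ) < 1 := v₂_sub_lt hx hγ1
    have h2 : v₂ (α + β) ≤ 1 := (v₂).map_add_le vα vβ
    have h3 : v₂ (x - γ) ^ 2 * v₂ (α + β) < 1 :=
      mul_lt_one_of_lt_of_le (pow_lt_one₀ zero_le h1 (by norm_num)) h2
    rw [hv] at h3
    exact lt_irrefl _ h3

/-- valuation of the `x`-coordinate, additive notation -/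
noncomputable def wv (Q : W.Point) : ℤ :=
  match Q with
  | .zero => 0
  | Point.some x _ _ => padicValRat 2 x

theorem wv_zero : wv (0 : W.Point) = 0 := rfl

theorem wv_some {x y : ℚ} (h : W.Nonsingular x y) : wv (some x y h) = padicValRat 2 x := rfl

theorem wv_neg (Q : W.Point) : wv (-Q) = wv Q := by
  match Q with
  | .zero => rfl
  | Point.some x _ _ => rfl

theorem x_ne_zero (H : NodeTwo v₂ W) {n : ℕ} (hn : Odd n) {x y : ℚ}
    (h : W.Nonsingular x y) (hP : n • some x y h = 0) : x ≠ 0 := by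
  have := H.odd_val_gt hn h hP
  exact ((v₂).pos_iff).mp (lt_of_le_of_lt zero_le this)

theorem wv_bounds (H : NodeTwo v₂ W) {n : ℕ} (hn : Odd n) (hn3 : Nat.Coprime 3 n) {x y : ℚ}
    (h : W.Nonsingular x y) (hP : n • some x y h = 0) :
    0 < padicValRat 2 x ∧ padicValRat 2 x < padicValRat 2 W.a₄ := by
  have hx := x_ne_zero H hn h hP
  exact ⟨(v₂_lt_one hx).mp (v_lt_one_of_odd H hn hn3 h hP),
    (v₂_lt H.va₄0 hx).mp (H.odd_val_gt hn h hP)⟩

theorem w_two : padicValRat 2 2 = 1 := by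
  have := padicValRat.self (p := 2) (by norm_num)
  exact_mod_cast this

theorem w_four : padicValRat 2 4 = 2 := by
  have h : (4 : ℚ) = 2 * 2 := by norm_num
  rw [h, padicValRat.mul (by norm_num) (by norm_num), w_two]
  norm_num

theorem b₂_ne_zero (H : NodeTwo v₂ W) : W.b₂ ≠ 0 := by
  intro h
  have := H.vb₂
  rw [h, _root_.map_zero] at this
  exact zero_ne_one this

theorem w_b₂ (H : NodeTwo v₂ W) : padicValRat 2 W.b₂ = 0 :=
  (v₂_eq_one (b₂_ne_zero H)).mp H.vb₂

/-- doubling -/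
theorem wv_dbl (H : NodeTwo v₂ W) {x γ : ℚ} (hx0 : x ≠ 0) (hγ0 : γ ≠ 0)
    (hx : 0 < padicValRat 2 x) (hx' : padicValRat 2 x < padicValRat 2 W.a₄)
    (hγ' : padicValRat 2 γ < padicValRat 2 W.a₄)
    (h : (4 * x ^ 3 + W.b₂ * x ^ 2 + 2 * W.b₄ * x + W.b₆) * γ =
        x ^ 4 - W.b₄ * x ^ 2 - 2 * W.b₆ * x - W.b₈) :
    padicValRat 2 γ = 2 * padicValRat 2 x ∨
      padicValRat 2 γ = 2 * padicValRat 2 W.a₄ - 2 * padicValRat 2 x := by
  rw [H.b₄_eq, H.b₆_eq, H.b₈_eq] at h
  have h' : x * (W.b₂ * x + (4 * x ^ 2 + 4 * W.a₄)) * γ = (x ^ 2 + - W.a₄) ^ 2 := by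
    linear_combination h
  have hb := b₂_ne_zero H
  have ha := H.va₄0
  have wb := w_b₂ H
  have e1 : padicValRat 2 (W.b₂ * x) = padicValRat 2 x := by
    rw [padicValRat.mul hb hx0, wb, zero_add]
  have e2 : padicValRat 2 (4 * x ^ 2) = 2 + 2 * padicValRat 2 x := by
    rw [padicValRat.mul (by norm_num) (pow_ne_zero 2 hx0), w_four, padicValRat.pow x]
    norm_num
  have e3 : padicValRat 2 (4 * W.a₄) = 2 + padicValRat 2 W.a₄ := by
    rw [padicValRat.mul (by norm_num) ha, w_four]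
  have e4 : padicValRat 2 (W.b₂ * x + (4 * x ^ 2 + 4 * W.a₄)) = padicValRat 2 x ∧
      W.b₂ * x + (4 * x ^ 2 + 4 * W.a₄) ≠ 0 := by
    by_cases hz : 4 * x ^ 2 + 4 * W.a₄ = 0
    · rw [hz, add_zero]; exact ⟨e1, mul_ne_zero hb hx0⟩
    · have := w_add_ge hz
      have := w_add_eq (mul_ne_zero hb hx0) hz (by omega)
      rw [e1] at this
      exact this
  obtain ⟨e4, e4'⟩ := e4
  have hz : x ^ 2 + - W.a₄ ≠ 0 := by
    intro hz
    rw [hz] at h'
    have : x * (W.b₂ * x + (4 * x ^ 2 + 4 * W.a₄)) * γ ≠ 0 :=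
      mul_ne_zero (mul_ne_zero hx0 e4') hγ0
    rw [h'] at this
    norm_num at this
  have hv := congrArg (padicValRat 2) h'
  rw [padicValRat.mul (mul_ne_zero hx0 e4') hγ0, padicValRat.mul hx0 e4', e4,
    padicValRat.pow (x ^ 2 + -W.a₄)] at hv
  have e5 : padicValRat 2 (x ^ 2) = 2 * padicValRat 2 x := by
    rw [padicValRat.pow x]; norm_num
  have e6 : padicValRat 2 (-W.a₄) = padicValRat 2 W.a₄ := padicValRat.neg _
  have e7 := w_add_ge hz
  have e8 : padicValRat 2 (x ^ 2) < padicValRat 2 (-W.a₄) →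
    padicValRat 2 (x ^ 2 + -W.a₄) = padicValRat 2 (x ^ 2) :=
    fun hlt => (w_add_eq (pow_ne_zero 2 hx0) (neg_ne_zero.mpr ha) hlt).1
  have e9 : padicValRat 2 (-W.a₄) < padicValRat 2 (x ^ 2) →
    padicValRat 2 (x ^ 2 + -W.a₄) = padicValRat 2 (-W.a₄) := by
    intro hlt
    rw [add_comm]
    exact (w_add_eq (neg_ne_zero.mpr ha) (pow_ne_zero 2 hx0) hlt).1
  push_cast at hv
  omega

/-- integer linear arithmetic for the tent map -/
theorem tent_arith {a b ν A B d s e : ℤ} (h1 : 0 < a) (h1' : a < ν) (h2 : 0 < b) (h2' : b < ν)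
    (h3 : 0 < A) (h3' : A < ν) (h4 : 0 < B) (h4' : B < ν)
    (hvs : 2 * d + s = a + b) (hvp : 2 * d + (A + B) = 2 * e)
    (d1 : min a b ≤ d) (d2 : a < b → d = a) (d3 : b < a → d = b)
    (s1 : min A B ≤ s) (s2 : A < B → s = A) (s3 : B < A → s = B)
    (e7 : min (a + b) ν ≤ e) (e8 : a + b < ν → e = a + b) (e9 : ν < a + b → e = ν) :
    ((A = a - b ∨ A = b - a) ∧ (B = a + b ∨ B = 2 * ν - (a + b))) ∨
    ((B = a - b ∨ B = b - a) ∧ (A = a + b ∨ A = 2 * ν - (a + b))) := by
  rcases lt_trichotomy a b with h | h | h <;> rcases lt_trichotomy A B with g | g | g <;>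
    rcases lt_trichotomy (a + b) ν with f | f | f
  all_goals
    first
      | have hd := d2 h
      | have hd := d3 h
      | have hd := (min_le_iff.mp d1)
    first
      | have hs := s2 g
      | have hs := s3 g
      | have hs := (min_le_iff.mp s1)
    first
      | have he := e8 f
      | have he := e9 f
      | have he := (min_le_iff.mp e7)
    clear d1 d2 d3 s1 s2 s3 e7 e8 e9
    omega

/-- the pair `P + Q`, `P - Q` -/
theorem wv_pair (H : NodeTwo v₂ W) {x₁ x₂ α β : ℚ} (hx₁ : x₁ ≠ 0) (hx₂ : x₂ ≠ 0)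
    (hα0 : α ≠ 0) (hβ0 : β ≠ 0) (hne : x₁ ≠ x₂)
    (h1 : 0 < padicValRat 2 x₁) (h1' : padicValRat 2 x₁ < padicValRat 2 W.a₄)
    (h2 : 0 < padicValRat 2 x₂) (h2' : padicValRat 2 x₂ < padicValRat 2 W.a₄)
    (h3 : 0 < padicValRat 2 α) (h3' : padicValRat 2 α < padicValRat 2 W.a₄)
    (h4 : 0 < padicValRat 2 β) (h4' : padicValRat 2 β < padicValRat 2 W.a₄)
    (hs : (x₁ - x₂) ^ 2 * (α + β) =
        2 * x₁ * x₂ * (x₁ + x₂) + W.b₂ * x₁ * x₂ + W.b₄ * (x₁ + x₂) + W.b₆)
    (hp : (x₁ - x₂) ^ 2 * (α * β) =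
        (x₁ * x₂) ^ 2 - W.b₄ * x₁ * x₂ - W.b₆ * (x₁ + x₂) - W.b₈) :
    ((padicValRat 2 α = padicValRat 2 x₁ - padicValRat 2 x₂ ∨
      padicValRat 2 α = padicValRat 2 x₂ - padicValRat 2 x₁) ∧
     (padicValRat 2 β = padicValRat 2 x₁ + padicValRat 2 x₂ ∨
      padicValRat 2 β = 2 * padicValRat 2 W.a₄ - (padicValRat 2 x₁ + padicValRat 2 x₂))) ∨
    ((padicValRat 2 β = padicValRat 2 x₁ - padicValRat 2 x₂ ∨
      padicValRat 2 β = padicValRat 2 x₂ - padicValRat 2 x₁) ∧
     (padicValRat 2 α = padicValRat 2 x₁ + padicValRat 2 x₂ ∨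
      padicValRat 2 α = 2 * padicValRat 2 W.a₄ - (padicValRat 2 x₁ + padicValRat 2 x₂))) := by
  rw [H.b₄_eq, H.b₆_eq] at hs
  rw [H.b₄_eq, H.b₆_eq, H.b₈_eq] at hp
  have hb := b₂_ne_zero H
  have ha := H.va₄0
  have wb := w_b₂ H
  have hx12 := mul_ne_zero hx₁ hx₂
  have hbx := mul_ne_zero hb hx12
  have hs' : (x₁ + - x₂) ^ 2 * (α + β) = W.b₂ * (x₁ * x₂) +
      (2 * (x₁ * x₂) + 2 * W.a₄) * (x₁ + x₂) := by
    linear_combination hs
  have hp' : (x₁ + - x₂) ^ 2 * (α * β) = (x₁ * x₂ + - W.a₄) ^ 2 := by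
    linear_combination hp
  have hd : x₁ + - x₂ ≠ 0 := by rw [← sub_eq_add_neg]; exact sub_ne_zero.mpr hne
  have w12 : padicValRat 2 (x₁ * x₂) = padicValRat 2 x₁ + padicValRat 2 x₂ :=
    padicValRat.mul hx₁ hx₂
  have wb12 : padicValRat 2 (W.b₂ * (x₁ * x₂)) = padicValRat 2 x₁ + padicValRat 2 x₂ := by
    rw [padicValRat.mul hb hx12, wb, w12, zero_add]
  have w212 : padicValRat 2 (2 * (x₁ * x₂)) = 1 + (padicValRat 2 x₁ + padicValRat 2 x₂) := by
    rw [padicValRat.mul (by norm_num) hx12, w12, w_two]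
  have w2a : padicValRat 2 (2 * W.a₄) = 1 + padicValRat 2 W.a₄ := by
    rw [padicValRat.mul (by norm_num) ha, w_two]
  -- valuation of the right hand side of the sum formula
  have hrhs : padicValRat 2 (W.b₂ * (x₁ * x₂) + (2 * (x₁ * x₂) + 2 * W.a₄) * (x₁ + x₂)) =
      padicValRat 2 x₁ + padicValRat 2 x₂ ∧
      W.b₂ * (x₁ * x₂) + (2 * (x₁ * x₂) + 2 * W.a₄) * (x₁ + x₂) ≠ 0 := by
    by_cases hz : (2 * (x₁ * x₂) + 2 * W.a₄) * (x₁ + x₂) = 0
    · rw [hz, add_zero]; exact ⟨wb12, hbx⟩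
    · have hz1 := left_ne_zero_of_mul hz
      have hz2 := right_ne_zero_of_mul hz
      have g1 := w_add_ge hz1
      have g2 := w_add_ge hz2
      have g3 := padicValRat.mul (p := 2) hz1 hz2
      have := w_add_eq hbx hz (by omega)
      rw [wb12] at this
      exact this
  have hsum : α + β ≠ 0 := by
    intro h0
    rw [h0, mul_zero] at hs'
    exact hrhs.2 hs'.symm
  have hvs := congrArg (padicValRat 2) hs'
  rw [padicValRat.mul (pow_ne_zero 2 hd) hsum, padicValRat.pow (x₁ + -x₂), hrhs.1] at hvs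
  have hz : x₁ * x₂ + - W.a₄ ≠ 0 := by
    intro hz
    rw [hz] at hp'
    have : (x₁ + -x₂) ^ 2 * (α * β) ≠ 0 := mul_ne_zero (pow_ne_zero 2 hd) (mul_ne_zero hα0 hβ0)
    rw [hp'] at this
    norm_num at this
  have hvp := congrArg (padicValRat 2) hp'
  rw [padicValRat.mul (pow_ne_zero 2 hd) (mul_ne_zero hα0 hβ0), padicValRat.pow (x₁ + -x₂),
    padicValRat.mul hα0 hβ0, padicValRat.pow (x₁ * x₂ + -W.a₄)] at hvp
  have nx2 : padicValRat 2 (-x₂) = padicValRat 2 x₂ := padicValRat.neg _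
  have na4 : padicValRat 2 (-W.a₄) = padicValRat 2 W.a₄ := padicValRat.neg _
  have d1 := w_add_ge hd
  have d2 : padicValRat 2 x₁ < padicValRat 2 (-x₂) →
    padicValRat 2 (x₁ + -x₂) = padicValRat 2 x₁ :=
    fun hlt => (w_add_eq hx₁ (neg_ne_zero.mpr hx₂) hlt).1
  have d3 : padicValRat 2 (-x₂) < padicValRat 2 x₁ →
    padicValRat 2 (x₁ + -x₂) = padicValRat 2 (-x₂) := by
    intro hlt
    rw [add_comm]
    exact (w_add_eq (neg_ne_zero.mpr hx₂) hx₁ hlt).1
  have s1 := w_add_ge hsum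
  have s2 : padicValRat 2 α < padicValRat 2 β → padicValRat 2 (α + β) = padicValRat 2 α :=
    fun hlt => (w_add_eq hα0 hβ0 hlt).1
  have s3 : padicValRat 2 β < padicValRat 2 α → padicValRat 2 (α + β) = padicValRat 2 β := by
    intro hlt
    rw [add_comm]
    exact (w_add_eq hβ0 hα0 hlt).1
  have e7 := w_add_ge hz
  have e8 : padicValRat 2 (x₁ * x₂) < padicValRat 2 (-W.a₄) →
    padicValRat 2 (x₁ * x₂ + -W.a₄) = padicValRat 2 (x₁ * x₂) :=
    fun hlt => (w_add_eq hx12 (neg_ne_zero.mpr ha) hlt).1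
  have e9 : padicValRat 2 (-W.a₄) < padicValRat 2 (x₁ * x₂) →
    padicValRat 2 (x₁ * x₂ + -W.a₄) = padicValRat 2 (-W.a₄) := by
    intro hlt
    rw [add_comm]
    exact (w_add_eq (neg_ne_zero.mpr ha) hx12 hlt).1
  push_cast at hvs hvp
  rw [nx2] at d1 d2 d3
  rw [na4, w12] at e7 e8 e9
  exact tent_arith h1 h1' h2 h2' h3 h3' h4 h4' hvs hvp d1 d2 d3 s1 s2 s3 e7 e8 e9

theorem tent_ring {R : Type*} [CommRing R] {k ν A B C D : ℤ} (hm : 2 * (ν : R) = 0)
    (ih0 : (B : R) = k * D ∨ (B : R) = - (k * D))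
    (ih1 : (C : R) = (k + 1) * D ∨ (C : R) = - ((k + 1) * D))
    (key : ((A = C - D ∨ A = D - C) ∧ (B = C + D ∨ B = 2 * ν - (C + D))) ∨
      ((B = C - D ∨ B = D - C) ∧ (A = C + D ∨ A = 2 * ν - (C + D)))) :
    (A : R) = (k + 1 + 1) * D ∨ (A : R) = - ((k + 1 + 1) * D) := by
  have key' : ((((A : R) = C - D ∨ (A : R) = D - C) ∧ ((B : R) = C + D ∨ (B : R) = - (C + D))) ∨
      (((B : R) = C - D ∨ (B : R) = D - C) ∧ ((A : R) = C + D ∨ (A : R) = - (C + D)))) := by
    rcases key with ⟨h1 | h1, h2 | h2⟩ | ⟨h1 | h1, h2 | h2⟩ <;> subst h1 <;> subst h2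
    all_goals push_cast
    · left; exact ⟨Or.inl rfl, Or.inl rfl⟩
    · left; exact ⟨Or.inl rfl, Or.inr (by linear_combination hm)⟩
    · left; exact ⟨Or.inr rfl, Or.inl rfl⟩
    · left; exact ⟨Or.inr rfl, Or.inr (by linear_combination hm)⟩
    · right; exact ⟨Or.inl rfl, Or.inl rfl⟩
    · right; exact ⟨Or.inl rfl, Or.inr (by linear_combination hm)⟩
    · right; exact ⟨Or.inr rfl, Or.inl rfl⟩
    · right; exact ⟨Or.inr rfl, Or.inr (by linear_combination hm)⟩
  clear key hm
  generalize (A : R) = A' at *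
  generalize (B : R) = B' at *
  generalize (C : R) = C' at *
  generalize (D : R) = D' at *
  generalize (k : R) = k' at *
  grind

/-- Component of `k • P`, modulo sign and modulo `2 v(a₄)`. -/
theorem wv_nsmul (H : NodeTwo v₂ W) {n : ℕ} (hn : Odd n) (hn3 : Nat.Coprime 3 n) {x y : ℚ}
    (h : W.Nonsingular x y) (hP : n • some x y h = 0) (k : ℕ) :
    ((wv (k • some x y h) : ZMod (2 * padicValRat 2 W.a₄).natAbs) = k * padicValRat 2 x ∨
    (wv (k • some x y h) : ZMod (2 * padicValRat 2 W.a₄).natAbs) = - (k * padicValRat 2 x)) ∧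
    ((wv ((k + 1) • some x y h) : ZMod (2 * padicValRat 2 W.a₄).natAbs) =
      (k + 1) * padicValRat 2 x ∨
    (wv ((k + 1) • some x y h) : ZMod (2 * padicValRat 2 W.a₄).natAbs) =
      - ((k + 1) * padicValRat 2 x)) := by
  obtain ⟨b1, b2⟩ := wv_bounds H hn hn3 h hP
  have hm : ((2 * padicValRat 2 W.a₄ : ℤ) : ZMod (2 * padicValRat 2 W.a₄).natAbs) = 0 := by
    rw [ZMod.intCast_zmod_eq_zero_iff_dvd]
    exact (Int.natAbs_dvd).mpr dvd_rfl
  have h2a : ((2 * padicValRat 2 x : ℤ) : ZMod (2 * padicValRat 2 W.a₄).natAbs) ≠ 0 := by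
    rw [Ne, ZMod.intCast_zmod_eq_zero_iff_dvd, Int.natAbs_dvd]
    intro hd
    have := Int.le_of_dvd (by omega) hd
    omega
  push_cast at hm h2a
  induction k with
  | zero => simp [wv_zero, wv_some]
  | succ k ih =>
    obtain ⟨ih0, ih1⟩ := ih
    refine ⟨by push_cast; exact ih1, ?_⟩
    have htk : n • ((k + 1) • some x y h) = 0 := by rw [smul_comm, hP]; exact nsmul_zero _
    have hsucc : (k + 1 + 1) • some x y h = (k + 1) • some x y h + some x y h := succ_nsmul _ _
    have hpred : k • some x y h = (k + 1) • some x y h - some x y h := by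
      rw [succ_nsmul, add_sub_cancel_right]
    obtain ⟨γ, yγ, hγ, e2, t2, hf⟩ := odd_dbl hn h hP
    obtain ⟨c1, c2⟩ := wv_bounds H hn hn3 hγ t2
    have hd := wv_dbl H (x_ne_zero H hn h hP) (x_ne_zero H hn hγ t2) b1 b2 c2 hf
    have hw2 : (wv ((2 : ℕ) • some x y h) : ZMod (2 * padicValRat 2 W.a₄).natAbs) =
        2 * padicValRat 2 x ∨ (wv ((2 : ℕ) • some x y h) :
        ZMod (2 * padicValRat 2 W.a₄).natAbs) = - (2 * padicValRat 2 x) := by
      rw [e2, wv_some]
      rcases hd with hd | hd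
      · left; rw [hd]; push_cast; ring
      · right; rw [hd]; push_cast; linear_combination hm
    generalize hQ : (k + 1) • some x y h = Q at *
    push_cast
    match Q, htk with
    | .zero, _ =>
      have e0 : (Point.zero : W.Point) = 0 := rfl
      rw [e0, zero_add] at hsucc
      rw [e0, wv_zero] at ih1
      rw [hsucc, wv_some]
      left
      rcases ih1 with h1 | h1
      · linear_combination h1
      · linear_combination -h1
    | Point.some x' y' h', htk =>
      obtain ⟨d1, d2⟩ := wv_bounds H hn hn3 h' htk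
      by_cases hxx : x' = x
      · rcases (X_eq_iff (h₁ := h') (h₂ := h)).mp hxx with h3 | h3
        · -- `(k+1) P = P`
          rw [h3, sub_self] at hpred
          rw [h3, ← two_nsmul] at hsucc
          rw [hpred, wv_zero] at ih0
          rw [hsucc]
          have e3 : (k : ZMod (2 * padicValRat 2 W.a₄).natAbs) * padicValRat 2 x = 0 := by
            rcases ih0 with h1 | h1
            · linear_combination -h1
            · linear_combination h1
          rcases hw2 with h1 | h1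
          · left; linear_combination h1 - e3
          · right; linear_combination h1 + e3
        · -- `(k+1) P = -P`
          have e4 : k • some x y h = - ((2 : ℕ) • some x y h) := by
            rw [hpred, h3, two_nsmul]; abel
          rw [h3, neg_add_cancel] at hsucc
          rw [hsucc, wv_zero]
          rw [e4, wv_neg] at ih0
          rw [h3, wv_neg, wv_some] at ih1
          rcases ih1 with h1 | h1
          · exfalso
            -- `k α = 0`
            have e5 : (k : ZMod (2 * padicValRat 2 W.a₄).natAbs) * padicValRat 2 x = 0 := by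
              linear_combination -h1
            apply h2a
            rw [e5, _root_.neg_zero] at ih0
            rcases hw2 with h5 | h5 <;> rcases ih0 with h6 | h6
            · linear_combination h6 - h5
            · linear_combination h6 - h5
            · linear_combination h5 - h6
            · linear_combination h5 - h6
          · left
            linear_combination -h1
      · obtain ⟨α, β, yα, yβ, hα, hβ, eα, eβ, -, hs, hp⟩ := exists_add_sub h' h hxx
        have tα : n • some α yα hα = 0 := by rw [← eα, smul_add, hP, htk, add_zero]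
        have tβ : n • some β yβ hβ = 0 := by rw [← eβ, smul_sub, hP, htk, sub_zero]
        obtain ⟨f1, f2⟩ := wv_bounds H hn hn3 hα tα
        obtain ⟨g1, g2⟩ := wv_bounds H hn hn3 hβ tβ
        have key := wv_pair H (x_ne_zero H hn h' htk) (x_ne_zero H hn h hP)
          (x_ne_zero H hn hα tα) (x_ne_zero H hn hβ tβ) hxx d1 d2 b1 b2 f1 f2 g1 g2 hs hp
        rw [hsucc, eα, wv_some]
        rw [hpred, eβ, wv_some] at ih0
        rw [wv_some] at ih1
        exact_mod_cast tent_ring (k := (k : ℤ)) hm (by exact_mod_cast ih0) (by exact_mod_cast ih1) key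

/-- A rational curve with multiplicative reduction at two has no rational point of order `n`
if `n` is coprime to `6` and to the valuation of the discriminant. -/
theorem no_odd_point (H : NodeTwo v₂ W) {n : ℕ} (hn : Odd n) (hn3 : Nat.Coprime 3 n)
    (hcop : Nat.Coprime n (2 * padicValRat 2 W.a₄).natAbs) (Q : W.Point) (hQ : n • Q = 0) :
    Q = 0 := by
  match Q, hQ with
  | .zero, _ => rfl
  | Point.some x y h, hQ =>
    exfalso
    obtain ⟨b1, b2⟩ := wv_bounds H hn hn3 h hQ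
    have h0 := (wv_nsmul H hn hn3 h hQ n).1
    rw [hQ, wv_zero] at h0
    have h1 : (n : ZMod (2 * padicValRat 2 W.a₄).natAbs) * padicValRat 2 x = 0 := by
      push_cast at h0
      rcases h0 with h2 | h2
      · exact h2.symm
      · linear_combination h2
    have hu : IsUnit (n : ZMod (2 * padicValRat 2 W.a₄).natAbs) :=
      (ZMod.isUnit_iff_coprime _ _).mpr hcop
    have h2 : ((padicValRat 2 x : ℤ) : ZMod (2 * padicValRat 2 W.a₄).natAbs) = 0 :=
      (hu.mul_right_eq_zero).mp h1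
    rw [ZMod.intCast_zmod_eq_zero_iff_dvd, Int.natAbs_dvd] at h2
    have := Int.le_of_dvd b1 h2
    omega

end Fermat.Agent.MultRed
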