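import Fermat.Agent.MultRed.Formulas
import Mathlib.RingTheory.Valuation.Basic
import Mathlib.FieldTheory.Finite.Basic

/-!
Multiplicative reduction in residue characteristic two, elementary `x`-coordinate analysis.
The curve is `y² + a₁xy = x³ + a₂x² + a₄x` with `a₁` a unit and `a₄` in the maximal ideal.
-/

set_option autoImplicit false

namespace Fermat.Agent.MultRed

open WeierstrassCurve WeierstrassCurve.Affine WeierstrassCurve.Affine.Point

variable {K : Type*} [Field K] {Γ₀ : Type*} [LinearOrderedCommGroupWithZero Γ₀]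

/-- Normal form of a curve with multiplicative reduction, residue characteristic two. -/
structure NodeTwo (v : Valuation K Γ₀) (W : Affine K) : Prop where
  a₃ : W.a₃ = 0
  a₆ : W.a₆ = 0
  va₁ : v W.a₁ = 1
  va₂ : v W.a₂ ≤ 1
  va₄ : v W.a₄ < 1
  va₄0 : W.a₄ ≠ 0
  v2 : v 2 < 1

namespace NodeTwo

variable {v : Valuation K Γ₀} {W : Affine K} (H : NodeTwo v W)
include H

theorem v4 : v 4 < 1 := by
  have h : (4 : K) = 2 * 2 := by norm_num
  rw [h, map_mul]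
  exact mul_lt_one_of_lt_of_le H.v2 H.v2.le

omit [LinearOrderedCommGroupWithZero Γ₀] H in
theorem b₂_eq : W.b₂ = W.a₁ ^ 2 + 4 * W.a₂ := rfl
theorem b₄_eq : W.b₄ = 2 * W.a₄ := by rw [b₄, H.a₃]; ring
theorem b₆_eq : W.b₆ = 0 := by rw [b₆, H.a₃, H.a₆]; ring
theorem b₈_eq : W.b₈ = - W.a₄ ^ 2 := by rw [b₈, H.a₃, H.a₆]; ring

theorem vb₂ : v W.b₂ = 1 := by
  rw [b₂_eq]
  have h1 : v (W.a₁ ^ 2) = 1 := by rw [map_pow, H.va₁, one_pow]
  have h2 : v (4 * W.a₂) < 1 := by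
    rw [map_mul]; exact mul_lt_one_of_lt_of_le H.v4 H.va₂
  rw [v.map_add_eq_of_lt_left (by rw [h1]; exact h2), h1]

/-- `v(4x²+b₂x+4a₄)` -/
theorem v_den_gt {x : K} (hx : 1 < v x) : v (4 * x ^ 2 + W.b₂ * x + 4 * W.a₄) < v x ^ 2 := by
  have hx0 : 0 < v x := zero_lt_one.trans hx
  have hx2 : v x < v x ^ 2 := by
    rw [pow_two]; exact lt_mul_of_one_lt_left hx0 hx
  refine v.map_add_lt (v.map_add_lt ?_ ?_) ?_
  · rw [map_mul, map_pow]
    exact mul_lt_of_lt_one_left (pow_pos hx0 2) H.v4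
  · rw [map_mul, H.vb₂, one_mul]; exact hx2
  · rw [map_mul]
    exact (mul_lt_one_of_lt_of_le H.v4 H.va₄.le).trans (hx.trans hx2)

theorem dbl_lt {x γ : K} (hx : 1 < v x)
    (h : (4 * x ^ 3 + W.b₂ * x ^ 2 + 2 * W.b₄ * x + W.b₆) * γ =
        x ^ 4 - W.b₄ * x ^ 2 - 2 * W.b₆ * x - W.b₈) : v x < v γ := by
  rw [H.b₄_eq, H.b₆_eq, H.b₈_eq] at h
  have h' : x * (4 * x ^ 2 + W.b₂ * x + 4 * W.a₄) * γ = (x ^ 2 - W.a₄) ^ 2 := by
    linear_combination h
  have hv := congrArg v h'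
  have hx0 : 0 < v x := zero_lt_one.trans hx
  have hx2 : 1 < v x ^ 2 := one_lt_pow₀ hx (by norm_num)
  have h1 : v (x ^ 2 - W.a₄) = v x ^ 2 := by
    rw [v.map_sub_eq_of_lt_left, map_pow]
    rw [map_pow]
    exact H.va₄.trans hx2
  rw [map_mul, map_mul, map_pow, h1] at hv
  by_contra hcon
  rw [not_lt] at hcon
  have h2 := H.v_den_gt hx
  have h3 : v x * v (4 * x ^ 2 + W.b₂ * x + 4 * W.a₄) * v γ ≤
      v x * v (4 * x ^ 2 + W.b₂ * x + 4 * W.a₄) * v x := by gcongr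
  have h4 : v x * v (4 * x ^ 2 + W.b₂ * x + 4 * W.a₄) * v x < v x * (v x) ^ 2 * v x := by
    gcongr
  have h5 : v x * (v x) ^ 2 * v x = (v x ^ 2) ^ 2 := by simp only [pow_two, mul_assoc]
  rw [h5, ← hv] at h4
  exact absurd h3 (not_le.mpr h4)

theorem dbl_eq {x γ : K} (hx : v x = 1)
    (h : (4 * x ^ 3 + W.b₂ * x ^ 2 + 2 * W.b₄ * x + W.b₆) * γ =
        x ^ 4 - W.b₄ * x ^ 2 - 2 * W.b₆ * x - W.b₈) : v γ = 1 := by
  rw [H.b₄_eq, H.b₆_eq, H.b₈_eq] at h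
  have h' : x * (4 * x ^ 2 + W.b₂ * x + 4 * W.a₄) * γ = (x ^ 2 - W.a₄) ^ 2 := by
    linear_combination h
  have hv := congrArg v h'
  have h1 : v (x ^ 2 - W.a₄) = 1 := by
    rw [v.map_sub_eq_of_lt_left, map_pow, hx, one_pow]
    rw [map_pow, hx, one_pow]
    exact H.va₄
  have h2 : v (4 * x ^ 2 + W.b₂ * x + 4 * W.a₄) = 1 := by
    have e1 : v (W.b₂ * x) = 1 := by rw [map_mul, H.vb₂, hx, one_mul]
    have e2 : v (4 * x ^ 2) < 1 := by rw [map_mul, map_pow, hx, one_pow, mul_one]; exact H.v4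
    have e3 : v (4 * W.a₄) < 1 := by rw [map_mul]; exact mul_lt_one_of_lt_of_le H.v4 H.va₄.le
    have e4 : v (4 * x ^ 2 + W.b₂ * x) = 1 := by
      rw [v.map_add_eq_of_lt_right (by rw [e1]; exact e2), e1]
    rw [v.map_add_eq_of_lt_left (by rw [e4]; exact e3), e4]
  rw [map_mul, map_mul, map_pow, h1, h2, hx, one_mul, one_mul, one_pow] at hv
  exact hv

theorem dbl_small {x γ : K} (hx : v x ≤ v W.a₄)
    (h : (4 * x ^ 3 + W.b₂ * x ^ 2 + 2 * W.b₄ * x + W.b₆) * γ =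
        x ^ 4 - W.b₄ * x ^ 2 - 2 * W.b₆ * x - W.b₈) : 1 ≤ v γ := by
  rw [H.b₄_eq, H.b₆_eq, H.b₈_eq] at h
  have h' : x * (4 * x ^ 2 + W.b₂ * x + 4 * W.a₄) * γ = (x ^ 2 - W.a₄) ^ 2 := by
    linear_combination h
  have hv := congrArg v h'
  have ha : 0 < v W.a₄ := (v.pos_iff).mpr H.va₄0
  have hx1 : v x < 1 := hx.trans_lt H.va₄
  have h1 : v (x ^ 2 - W.a₄) = v W.a₄ := by
    rw [v.map_sub_eq_of_lt_right]
    rw [map_pow, pow_two]
    calc v x * v x ≤ v x * v W.a₄ := by gcongr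
      _ < 1 * v W.a₄ := by gcongr
      _ = v W.a₄ := one_mul _
  have h2 : v (4 * x ^ 2 + W.b₂ * x + 4 * W.a₄) ≤ v W.a₄ := by
    refine v.map_add_le (v.map_add_le ?_ ?_) ?_
    · rw [map_mul, map_pow, pow_two]
      calc v 4 * (v x * v x) ≤ 1 * (1 * v W.a₄) := by gcongr; exact H.v4.le
        _ = v W.a₄ := by rw [one_mul, one_mul]
    · rw [map_mul, H.vb₂, one_mul]; exact hx
    · rw [map_mul]
      calc v 4 * v W.a₄ ≤ 1 * v W.a₄ := by gcongr; exact H.v4.le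
        _ = v W.a₄ := one_mul _
  rw [map_mul, map_mul, map_pow, h1] at hv
  by_contra hcon
  rw [not_le] at hcon
  have h3 : v x * v (4 * x ^ 2 + W.b₂ * x + 4 * W.a₄) * v γ ≤ v W.a₄ * v W.a₄ * v γ := by gcongr
  have h4 : v W.a₄ * v W.a₄ * v γ < v W.a₄ * v W.a₄ * 1 := by
    gcongr
  rw [hv, mul_one, ← pow_two] at *
  exact absurd h3 (not_le.mpr h4)

end NodeTwo

section Odd

variable [DecidableEq K] {W : Affine K}

theorem odd_ne {n : ℕ} (hn : Odd n) {x y : K} (h : W.Nonsingular x y)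
    (hP : n • some x y h = 0) : 2 * y + W.a₁ * x + W.a₃ ≠ 0 := by
  intro h0
  have hneg : - some x y h = some x y h := by
    rw [neg_some]
    simp only [some.injEq, true_and]
    rw [negY]
    linear_combination -h0
  obtain ⟨m, rfl⟩ := hn
  rw [add_smul, mul_comm, mul_smul, one_smul, two_nsmul] at hP
  have h2 : some x y h + some x y h = 0 := by
    nth_rewrite 1 [← hneg]
    exact neg_add_cancel _
  rw [h2, smul_zero, zero_add] at hP
  exact some_ne_zero h hP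

theorem odd_dbl {n : ℕ} (hn : Odd n) {x y : K} (h : W.Nonsingular x y)
    (hP : n • some x y h = 0) :
    ∃ (γ yγ : K) (hγ : W.Nonsingular γ yγ),
      (2 : ℕ) • some _ _ h = some _ _ hγ ∧ n • some _ _ hγ = 0 ∧
      (4 * x ^ 3 + W.b₂ * x ^ 2 + 2 * W.b₄ * x + W.b₆) * γ =
        x ^ 4 - W.b₄ * x ^ 2 - 2 * W.b₆ * x - W.b₈ := by
  obtain ⟨γ, yγ, hγ, h2, hf⟩ := exists_two_smul h (odd_ne hn h hP)
  exact ⟨γ, yγ, hγ, h2, by rw [← h2, smul_comm, hP, smul_zero], hf⟩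

theorem odd_iter {n : ℕ} (hn : Odd n) {G : Type*} [AddCommGroup G] (T : G → Prop)
    (hT : ∀ Q : G, n • Q = 0 → T Q → T ((2 : ℕ) • Q)) {Q : G}
    (hQ : n • Q = 0) (h : T ((2 : ℕ) • Q)) : T Q := by
  have h1 : ∀ k : ℕ, T ((2 ^ (k + 1)) • Q) := by
    intro k
    induction k with
    | zero => simpa using h
    | succ k ih =>
      have := hT ((2 ^ (k + 1)) • Q) (by rw [smul_comm, hQ, smul_zero]) ih
      rwa [← mul_smul, ← pow_succ'] at this
  have hn0 : n ≠ 0 := by rintro rfl; simp at hn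
  have hc : Nat.Coprime 2 n := (Nat.coprime_two_left).mpr hn
  have h2 : 2 ^ (n.totient) ≡ 1 [MOD n] := Nat.ModEq.pow_totient hc
  have hpos : 0 < n.totient := Nat.totient_pos.mpr (Nat.pos_of_ne_zero hn0)
  obtain ⟨k, hk⟩ := Nat.exists_eq_succ_of_ne_zero hpos.ne'
  have h3 : (2 ^ n.totient) • Q = Q := by
    have h4 : n ∣ 2 ^ n.totient - 1 := (Nat.modEq_iff_dvd' Nat.one_le_two_pow).mp h2.symm
    obtain ⟨c, hc⟩ := h4
    have h5 : 2 ^ n.totient = n * c + 1 := by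
      have : 1 ≤ 2 ^ n.totient := Nat.one_le_two_pow
      omega
    rw [h5, add_smul, one_smul, mul_comm, mul_smul, hQ, smul_zero, zero_add]
  have := h1 k
  rw [← Nat.succ_eq_add_one, ← hk, h3] at this
  exact this

end Odd

namespace NodeTwo

variable [DecidableEq K] {v : Valuation K Γ₀} {W : Affine K} (H : NodeTwo v W)
include H

theorem odd_val_le {n : ℕ} (hn : Odd n) {x y : K} (h : W.Nonsingular x y)
    (hP : n • some x y h = 0) : v x ≤ 1 := by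
  by_contra hcon
  rw [not_le] at hcon
  have key : ∃ (x' y' : K) (h' : W.Nonsingular x' y'), some x y h = some x' y' h' ∧ v x < v x' := by
    refine odd_iter hn (T := fun Q => ∃ (x' y' : K) (h' : W.Nonsingular x' y'),
      Q = some x' y' h' ∧ v x < v x') ?_ hP ?_
    · rintro Q hQ ⟨x', y', h', rfl, hlt⟩
      obtain ⟨γ, yγ, hγ, h2, -, hf⟩ := odd_dbl hn h' hQ
      exact ⟨γ, yγ, hγ, h2, hlt.trans (H.dbl_lt (hcon.trans hlt) hf)⟩
    · obtain ⟨γ, yγ, hγ, h2, -, hf⟩ := odd_dbl hn h hP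
      exact ⟨γ, yγ, hγ, h2, H.dbl_lt hcon hf⟩
  obtain ⟨x', y', h', he, hlt⟩ := key
  simp only [some.injEq] at he
  rw [he.1] at hlt
  exact lt_irrefl _ hlt

theorem odd_val_gt {n : ℕ} (hn : Odd n) {x y : K} (h : W.Nonsingular x y)
    (hP : n • some x y h = 0) : v W.a₄ < v x := by
  by_contra hcon
  rw [not_lt] at hcon
  have key : ∃ (x' y' : K) (h' : W.Nonsingular x' y'), some x y h = some x' y' h' ∧ v x' = 1 := by
    refine odd_iter hn (T := fun Q => ∃ (x' y' : K) (h' : W.Nonsingular x' y'),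
      Q = some x' y' h' ∧ v x' = 1) ?_ hP ?_
    · rintro Q hQ ⟨x', y', h', rfl, hlt⟩
      obtain ⟨γ, yγ, hγ, h2, -, hf⟩ := odd_dbl hn h' hQ
      exact ⟨γ, yγ, hγ, h2, H.dbl_eq hlt hf⟩
    · obtain ⟨γ, yγ, hγ, h2, h3, hf⟩ := odd_dbl hn h hP
      exact ⟨γ, yγ, hγ, h2, le_antisymm (H.odd_val_le hn hγ h3) (H.dbl_small hcon hf)⟩
  obtain ⟨x', y', h', he, hlt⟩ := key
  simp only [some.injEq] at he
  rw [← he.1] at hlt
  rw [hlt] at hcon
  exact absurd H.va₄ (not_lt.mpr hcon)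

end NodeTwo

end Fermat.Agent.MultRed
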